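import Mathlib
import Fermat.Prelude.Def_ModularCurve_PeriodHomPair

/-!
# S21, piece (C): upper bound for the dimension of the space of parabolic homomorphisms

Pure group theory and linear algebra: for a finite index subgroup `Γ` of `SL(2, ℤ)` containing
`-1`, `dim Hom_par(Γ, ℂ) ≤ 2 + d - m_S - m_U - m_T`.
-/

open CongruenceSubgroup ModularCurve ModularCurve.Period
open scoped MatrixGroups

namespace Fermat.Agent.S21Lib

open Module Finset

section Abstract

variable {G X : Type*} [Group G] [MulAction G X]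

/-- The elements of `G` leaving a function on `X` invariant. -/
def gb_stab (l : X → ℂ) : Subgroup G where
  carrier := {h | ∀ x, l (h • x) = l x}
  mul_mem' := fun {a b} ha hb x => by rw [mul_smul, ha, hb]
  one_mem' := fun x => by rw [one_smul]
  inv_mem' := fun {a} ha x => by
    have := ha (a⁻¹ • x)
    rw [smul_inv_smul] at this
    exact this.symm

theorem gb_mem_stab {l : X → ℂ} {h : G} : h ∈ gb_stab (G := G) l ↔ ∀ x, l (h • x) = l x := Iff.rfl

/-- The functions on `X` invariant under `g`. -/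
def gb_inv (g : G) : Submodule ℂ (X → ℂ) where
  carrier := {l | ∀ x, l (g • x) = l x}
  add_mem' := fun {a b} ha hb x => by simp [ha x, hb x]
  zero_mem' := fun x => rfl
  smul_mem' := fun c a ha x => by simp [ha x]

theorem gb_mem_inv {l : X → ℂ} {g : G} : l ∈ gb_inv g ↔ ∀ x, l (g • x) = l x := Iff.rfl

theorem gb_inv_pow {l : X → ℂ} {g : G} (hl : l ∈ gb_inv g) (i : ℕ) (x : X) :
    l (g ^ i • x) = l x := by
  have h : g ∈ gb_stab (G := G) l := hl
  exact (pow_mem h i) x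

/-- A function whose `g`-averages vanish is orthogonal to the `g`-invariant functions. -/
theorem gb_orth [Fintype X] (g : G) (n : ℕ) (hn : 0 < n) (m : X → ℂ)
    (hm : ∀ x, ∑ i ∈ range n, m (g ^ i • x) = 0) {l : X → ℂ} (hl : l ∈ gb_inv g) :
    ∑ x, l x * m x = 0 := by
  have h1 : ∀ i : ℕ, ∑ x, l x * m (g ^ i • x) = ∑ x, l x * m x := by
    intro i
    rw [← Equiv.sum_comp (MulAction.toPerm (g ^ i)) (fun x => l x * m x)]
    refine Finset.sum_congr rfl fun x _ => ?_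
    simp only [MulAction.toPerm_apply]
    rw [gb_inv_pow hl]
  have h2 : (n : ℂ) * ∑ x, l x * m x = 0 := by
    calc (n : ℂ) * ∑ x, l x * m x = ∑ i ∈ range n, ∑ x, l x * m (g ^ i • x) := by
          rw [Finset.sum_congr rfl fun i _ => h1 i]; simp
      _ = ∑ x, l x * ∑ i ∈ range n, m (g ^ i • x) := by
          rw [Finset.sum_comm]
          refine Finset.sum_congr rfl fun x _ => ?_
          rw [Finset.mul_sum]
      _ = 0 := by simp [hm]
  have hn' : (n : ℂ) ≠ 0 := by exact_mod_cast hn.ne'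
  exact (mul_eq_zero.mp h2).resolve_left hn'

theorem gb_finrank_le_range_add_one {V V' : Type*} [AddCommGroup V] [Module ℂ V]
    [FiniteDimensional ℂ V] [AddCommGroup V'] [Module ℂ V'] (f : V →ₗ[ℂ] V') (v0 : V)
    (h : ∀ v, f v = 0 → ∃ c : ℂ, v = c • v0) :
    finrank ℂ V ≤ finrank ℂ (LinearMap.range f) + 1 := by
  have h1 : LinearMap.ker f ≤ Submodule.span ℂ {v0} := fun v hv => by
    obtain ⟨c, rfl⟩ := h v hv
    exact Submodule.smul_mem _ _ (Submodule.mem_span_singleton_self _)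
  have h2 : finrank ℂ (LinearMap.ker f) ≤ 1 :=
    (Submodule.finrank_mono h1).trans (by simpa using finrank_span_le_card (R := ℂ) ({v0} : Set V))
  have := f.finrank_range_add_finrank_ker
  omega

end Abstract

section Abstract

variable {G X : Type*} [Group G] [MulAction G X]

theorem gb_conj_mem_inv {g : G} {l : X → ℂ} (hl : l ∈ gb_inv g) :
    (fun x => (starRingEnd ℂ) (l x)) ∈ gb_inv g := fun x => by
  show (starRingEnd ℂ) (l (g • x)) = (starRingEnd ℂ) (l x)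
  rw [hl x]

/-- The map `(λ, μ, ρ) ↦ (λ - ρ, μ + ρ)`. -/
def gb_J (s u t : G) : (gb_inv (X := X) s × gb_inv (X := X) u × gb_inv (X := X) t) →ₗ[ℂ]
    (X → ℂ) × (X → ℂ) where
  toFun p := ((p.1 : X → ℂ) - (p.2.2 : X → ℂ), (p.2.1 : X → ℂ) + (p.2.2 : X → ℂ))
  map_add' p q := by
    ext x <;> simp <;> ring
  map_smul' c p := by
    ext x <;> simp <;> ring

theorem gb_dim_bound [Fintype X] (x0 : X) (s u t : G)
    (hconst : ∀ l : X → ℂ, l ∈ gb_inv s → l ∈ gb_inv t → ∀ x, l x = l x0)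
    (W : Submodule ℂ ((X → ℂ) × (X → ℂ)))
    (hW : ∀ w ∈ W, (∀ l ∈ gb_inv s, ∑ x, l x * w.1 x = 0) ∧
      (∀ l ∈ gb_inv u, ∑ x, l x * w.2 x = 0) ∧
      (∀ l ∈ gb_inv t, ∑ x, l x * (w.2 x - w.1 x) = 0)) :
    finrank ℂ W + finrank ℂ (gb_inv (X := X) s) + finrank ℂ (gb_inv (X := X) u)
      + finrank ℂ (gb_inv (X := X) t) ≤ 2 * Fintype.card X + 1 := by
  classical
  have hone : ∀ g : G, (fun _ : X => (1 : ℂ)) ∈ gb_inv g := fun g x => rfl
  -- the kernel of `J` is at most one-dimensional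
  have h1 := gb_finrank_le_range_add_one (gb_J (X := X) s u t)
    (⟨_, hone s⟩, -⟨_, hone u⟩, ⟨_, hone t⟩) (by
      rintro ⟨⟨l, hl⟩, ⟨m, hm⟩, ⟨r, hr⟩⟩ h
      simp only [gb_J, LinearMap.coe_mk, AddHom.coe_mk, Prod.mk_eq_zero] at h
      obtain ⟨h1, h2⟩ := h
      have hlr : l = r := sub_eq_zero.mp h1
      have hmr : m = -r := eq_neg_of_add_eq_zero_left h2
      subst hlr
      subst hmr
      have hc := hconst l hl hr
      refine ⟨l x0, ?_⟩
      ext x <;> simp [hc x])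
  -- `W` meets the range of `J` trivially
  have h2 : W ⊓ LinearMap.range (gb_J (X := X) s u t) = ⊥ := by
    rw [eq_bot_iff]
    rintro w ⟨hw, ⟨⟨l, hl⟩, ⟨m, hm⟩, ⟨r, hr⟩⟩, rfl⟩
    obtain ⟨a1, a2, a3⟩ := hW _ hw
    have b1 := a1 _ (gb_conj_mem_inv hl)
    have b2 := a2 _ (gb_conj_mem_inv hm)
    have b3 := a3 _ (gb_conj_mem_inv hr)
    simp only [gb_J, LinearMap.coe_mk, AddHom.coe_mk, Pi.sub_apply, Pi.add_apply] at b1 b2 b3 ⊢
    have key : ∑ x, ((‖l x - r x‖ ^ 2 + ‖m x + r x‖ ^ 2 : ℝ) : ℂ) = 0 := by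
      have : ∀ x, ((‖l x - r x‖ ^ 2 + ‖m x + r x‖ ^ 2 : ℝ) : ℂ)
          = (starRingEnd ℂ) (l x) * (l x - r x) + (starRingEnd ℂ) (m x) * (m x + r x)
            + (starRingEnd ℂ) (r x) * (m x + r x - (l x - r x)) := by
        intro x
        push_cast
        rw [← Complex.conj_mul', ← Complex.conj_mul']
        simp only [map_sub, map_add]
        ring
      rw [Finset.sum_congr rfl fun x _ => this x, Finset.sum_add_distrib, Finset.sum_add_distrib,
        b1, b2, b3]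
      simp
    rw [← Complex.ofReal_sum, Complex.ofReal_eq_zero,
      Finset.sum_eq_zero_iff_of_nonneg (fun x _ => by positivity)] at key
    rw [Submodule.mem_bot]
    ext x
    · have := key x (Finset.mem_univ x)
      have h3 : ‖l x - r x‖ ^ 2 = 0 := by nlinarith [sq_nonneg ‖l x - r x‖, sq_nonneg ‖m x + r x‖]
      simpa using h3
    · have := key x (Finset.mem_univ x)
      have h3 : ‖m x + r x‖ ^ 2 = 0 := by nlinarith [sq_nonneg ‖l x - r x‖, sq_nonneg ‖m x + r x‖]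
      simpa using h3
  have h3 := Submodule.finrank_sup_add_finrank_inf_eq W (LinearMap.range (gb_J (X := X) s u t))
  rw [h2, finrank_bot, add_zero] at h3
  have h4 : finrank ℂ ↥(W ⊔ LinearMap.range (gb_J (X := X) s u t)) ≤ 2 * Fintype.card X := by
    refine (Submodule.finrank_le _).trans ?_
    simp [two_mul]
  have h5 : finrank ℂ (gb_inv (X := X) s × gb_inv (X := X) u × gb_inv (X := X) t)
      = finrank ℂ (gb_inv (X := X) s) + (finrank ℂ (gb_inv (X := X) u)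
        + finrank ℂ (gb_inv (X := X) t)) := by
    rw [Module.finrank_prod, Module.finrank_prod]
  omega

end Abstract

section Abstract

variable {G X : Type*} [Group G] [MulAction G X]

theorem gb_trace_funLeft [Fintype X] [DecidableEq X] (f : X → X) :
    LinearMap.trace ℂ (X → ℂ) (LinearMap.funLeft ℂ ℂ f) = (Fintype.card {x : X // f x = x} : ℂ) := by
  rw [LinearMap.trace_eq_matrix_trace ℂ (Pi.basisFun ℂ X), Matrix.trace]
  simp only [Matrix.diag_apply, LinearMap.toMatrix_apply, Pi.basisFun_apply, Pi.basisFun_repr,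
    LinearMap.funLeft_apply, Pi.single_apply]
  rw [Finset.sum_boole, Fintype.card_subtype]

theorem gb_card_inv [Fintype X] [DecidableEq X] (g : G) (n : ℕ) (hn : 0 < n)
    (hg : ∀ x : X, g ^ n • x = x) :
    n * finrank ℂ (gb_inv (X := X) g) = ∑ i ∈ range n, Fintype.card {x : X // g ^ i • x = x} := by
  have hn' : (n : ℂ) ≠ 0 := by exact_mod_cast hn.ne'
  set p : (X → ℂ) →ₗ[ℂ] (X → ℂ) :=
    (n : ℂ)⁻¹ • ∑ i ∈ range n, LinearMap.funLeft ℂ ℂ (fun x : X => g ^ i • x) with hp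
  have happ : ∀ (m : X → ℂ) (x : X), p m x = (n : ℂ)⁻¹ * ∑ i ∈ range n, m (g ^ i • x) := by
    intro m x
    simp [hp, LinearMap.sum_apply, Finset.sum_apply, LinearMap.funLeft_apply]
  have hproj : LinearMap.IsProj (gb_inv (X := X) g) p := by
    refine ⟨fun m x => ?_, fun m hm => ?_⟩
    · rw [happ, happ]
      congr 1
      have e1 : ∀ i, m (g ^ i • g • x) = m (g ^ (i + 1) • x) := fun i => by
        rw [pow_succ, mul_smul]
      rw [Finset.sum_congr rfl fun i _ => e1 i]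
      have e2 := Finset.sum_range_succ (fun i => m (g ^ i • x)) n
      have e3 := Finset.sum_range_succ' (fun i => m (g ^ i • x)) n
      rw [e2] at e3
      simp only [hg, pow_zero, one_smul] at e3
      exact (add_right_cancel e3).symm
    · ext x
      rw [happ, Finset.sum_congr rfl fun i _ => gb_inv_pow hm i x]
      simp [hn']
  have htr := hproj.trace
  rw [hp, map_smul, map_sum, Finset.sum_congr rfl fun i _ => gb_trace_funLeft _, smul_eq_mul,
    inv_mul_eq_iff_eq_mul₀ hn'] at htr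
  exact_mod_cast htr.symm

theorem gb_finrank_inv_eq_card_orbits [Finite X] (g : G) :
    finrank ℂ (gb_inv (X := X) g)
      = Nat.card (MulAction.orbitRel.Quotient (Subgroup.zpowers g) X) := by
  classical
  have : Fintype (MulAction.orbitRel.Quotient (Subgroup.zpowers g) X) := Fintype.ofFinite _
  let Φ : (MulAction.orbitRel.Quotient (Subgroup.zpowers g) X → ℂ) →ₗ[ℂ] gb_inv (X := X) g :=
    { toFun := fun f => ⟨fun x => f (Quotient.mk'' x), fun x => by
        show f (Quotient.mk'' (g • x)) = f (Quotient.mk'' x)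
        congr 1
        apply Quotient.sound'
        rw [MulAction.orbitRel_apply]
        exact ⟨⟨g, Subgroup.mem_zpowers g⟩, rfl⟩⟩
      map_add' := fun a b => rfl
      map_smul' := fun c a => rfl }
  have hbij : Function.Bijective Φ := by
    constructor
    · intro a b hab
      ext q
      induction q using Quotient.inductionOn' with
      | h x => exact congrFun (congrArg Subtype.val hab) x
    · rintro ⟨l, hl⟩
      have hz : Subgroup.zpowers g ≤ gb_stab (G := G) l := by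
        rw [Subgroup.zpowers_le]; exact hl
      refine ⟨fun q => Quotient.liftOn' q l ?_, ?_⟩
      · intro a b hab
        rw [MulAction.orbitRel_apply] at hab
        obtain ⟨⟨h, hh⟩, rfl⟩ := hab
        exact hz hh b
      · ext x
        rfl
  rw [← (LinearEquiv.ofBijective Φ hbij).finrank_eq, Module.finrank_fintype_fun_eq_card,
    Nat.card_eq_fintype_card]

end Abstract

section Cocycle

variable {G X : Type*} [Group G] [MulAction G X]

/-- Cocycle condition for `B : G → X → ℂ`. -/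
def gb_IsCoc (B : G → X → ℂ) : Prop := ∀ g h x, B (g * h) x = B g (h • x) + B h x

theorem gb_IsCoc.one {B : G → X → ℂ} (hB : gb_IsCoc B) (x : X) : B 1 x = 0 := by
  have := hB 1 1 x
  rw [mul_one, one_smul] at this
  simpa using this

theorem gb_IsCoc.pow {B : G → X → ℂ} (hB : gb_IsCoc B) (g : G) (n : ℕ) (x : X) :
    B (g ^ n) x = ∑ i ∈ range n, B g (g ^ i • x) := by
  induction n with
  | zero => simp [hB.one]
  | succ n ih => rw [pow_succ', hB, ih, Finset.sum_range_succ, add_comm]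

/-- The subgroup on which a cocycle vanishes. -/
def gb_IsCoc.ker {B : G → X → ℂ} (hB : gb_IsCoc B) : Subgroup G where
  carrier := {g | ∀ x, B g x = 0}
  mul_mem' := fun {a b} ha hb x => by rw [hB, ha, hb, add_zero]
  one_mem' := hB.one
  inv_mem' := fun {a} ha x => by
    have := hB a⁻¹ a (a⁻¹ • x)
    rw [inv_mul_cancel, hB.one, smul_inv_smul, ha, add_zero] at this
    exact this.symm

end Cocycle

section Concrete

variable (Γ : Subgroup SL(2, ℤ))

/-- Extension by zero of a homomorphism on `Γ`. -/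
noncomputable def gb_ext (φ : Additive Γ →+ ℂ) (g : SL(2, ℤ)) : ℂ := by
  classical exact if h : g ∈ Γ then φ (Additive.ofMul ⟨g, h⟩) else 0

variable {Γ}

theorem gb_ext_of_mem (φ : Additive Γ →+ ℂ) {g : SL(2, ℤ)} (h : g ∈ Γ) :
    gb_ext Γ φ g = φ (Additive.ofMul ⟨g, h⟩) := by
  simp [gb_ext, h]

theorem gb_ext_mul (φ : Additive Γ →+ ℂ) {g h : SL(2, ℤ)} (hg : g ∈ Γ) (hh : h ∈ Γ) :
    gb_ext Γ φ (g * h) = gb_ext Γ φ g + gb_ext Γ φ h := by
  rw [gb_ext_of_mem φ hg, gb_ext_of_mem φ hh, gb_ext_of_mem φ (mul_mem hg hh), ← map_add]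
  rfl

theorem gb_ext_add (φ ψ : Additive Γ →+ ℂ) (g : SL(2, ℤ)) :
    gb_ext Γ (φ + ψ) g = gb_ext Γ φ g + gb_ext Γ ψ g := by
  by_cases h : g ∈ Γ <;> simp [gb_ext, h]

theorem gb_ext_smul (c : ℂ) (φ : Additive Γ →+ ℂ) (g : SL(2, ℤ)) :
    gb_ext Γ (c • φ) g = c * gb_ext Γ φ g := by
  by_cases h : g ∈ Γ <;> simp [gb_ext, h]

theorem gb_ext_parabolic {φ : Additive Γ →+ ℂ} (hφ : φ ∈ parabolicHoms ℂ Γ ℂ) (g : SL(2, ℤ))
    (hg : (g : Matrix (Fin 2) (Fin 2) ℤ).trace ^ 2 = 4) : gb_ext Γ φ g = 0 := by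
  by_cases h : g ∈ Γ
  · rw [gb_ext_of_mem φ h]
    exact hφ ⟨g, h⟩ hg
  · simp [gb_ext, h]

variable (Γ)

/-- The `Γ`-valued cocycle attached to the section `Quotient.out`. -/
noncomputable def gb_kap (g : SL(2, ℤ)) (x : SL(2, ℤ) ⧸ Γ) : SL(2, ℤ) :=
  (Quotient.out (g • x))⁻¹ * g * Quotient.out x

variable {Γ}

theorem gb_kap_mem (g : SL(2, ℤ)) (x : SL(2, ℤ) ⧸ Γ) : gb_kap Γ g x ∈ Γ := by
  unfold gb_kap
  rw [mul_assoc, ← QuotientGroup.eq]
  rw [QuotientGroup.out_eq']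
  conv_lhs => rw [← QuotientGroup.out_eq' x]
  rfl

theorem gb_kap_mul (g h : SL(2, ℤ)) (x : SL(2, ℤ) ⧸ Γ) :
    gb_kap Γ (g * h) x = gb_kap Γ g (h • x) * gb_kap Γ h x := by
  unfold gb_kap
  rw [mul_smul]
  group

/-- The cocycle attached to `(φ, m)`. -/
noncomputable def gb_B (φ : Additive Γ →+ ℂ) (m : SL(2, ℤ) ⧸ Γ → ℂ) (g : SL(2, ℤ))
    (x : SL(2, ℤ) ⧸ Γ) : ℂ :=
  gb_ext Γ φ (gb_kap Γ g x) + m (g • x) - m x

theorem gb_B_isCoc (φ : Additive Γ →+ ℂ) (m : SL(2, ℤ) ⧸ Γ → ℂ) : gb_IsCoc (gb_B φ m) := by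
  intro g h x
  unfold gb_B
  rw [gb_kap_mul, gb_ext_mul φ (gb_kap_mem _ _) (gb_kap_mem _ _), mul_smul]
  ring

/-- If `h` acts trivially on `X` and has trace `±2`, the cocycle of a parabolic `φ` vanishes
at `h`. -/
theorem gb_B_eq_zero {φ : Additive Γ →+ ℂ} (hφ : φ ∈ parabolicHoms ℂ Γ ℂ)
    (m : SL(2, ℤ) ⧸ Γ → ℂ) (h : SL(2, ℤ)) (htriv : ∀ x : SL(2, ℤ) ⧸ Γ, h • x = x)
    (htr : (h : Matrix (Fin 2) (Fin 2) ℤ).trace ^ 2 = 4) (x : SL(2, ℤ) ⧸ Γ) :
    gb_B φ m h x = 0 := by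
  unfold gb_B
  rw [htriv x, gb_ext_parabolic hφ, zero_add, sub_self]
  unfold gb_kap
  rw [htriv x, Matrix.SpecialLinearGroup.coe_mul, Matrix.SpecialLinearGroup.coe_mul,
    Matrix.trace_mul_comm, ← Matrix.mul_assoc, ← Matrix.SpecialLinearGroup.coe_mul, mul_inv_cancel]
  simpa using htr

end Concrete

section Final

variable {Γ : Subgroup SL(2, ℤ)}

theorem gb_neg_one_smul (hneg : -1 ∈ Γ) (x : SL(2, ℤ) ⧸ Γ) : (-1 : SL(2, ℤ)) • x = x := by
  induction x using QuotientGroup.induction_on with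
  | H g =>
    show ((-1 * g : SL(2, ℤ)) : SL(2, ℤ) ⧸ Γ) = g
    rw [QuotientGroup.eq]
    have : (-1 * g)⁻¹ * g = -1 := by
      rw [inv_mul_eq_iff_eq_mul]; simp
    rw [this]; exact hneg

theorem gb_S_sq : ModularGroup.S ^ 2 = (-1 : SL(2, ℤ)) := by
  ext i j
  fin_cases i <;> fin_cases j <;>
    simp [pow_two, ModularGroup.coe_S, Matrix.mul_apply, Fin.sum_univ_two]

theorem gb_U_cube : (ModularGroup.S * ModularGroup.T) ^ 3 = (-1 : SL(2, ℤ)) := by
  ext i j
  fin_cases i <;> fin_cases j <;>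
    simp [pow_succ, ModularGroup.coe_S, ModularGroup.coe_T, Matrix.mul_apply, Fin.sum_univ_two]

theorem gb_trace_neg_one :
    ((-1 : SL(2, ℤ)) : Matrix (Fin 2) (Fin 2) ℤ).trace ^ 2 = 4 := by
  simp [Matrix.trace]

theorem gb_trace_T_pow (n : ℕ) :
    ((ModularGroup.T ^ n : SL(2, ℤ)) : Matrix (Fin 2) (Fin 2) ℤ).trace ^ 2 = 4 := by
  have := ModularGroup.coe_T_zpow (n : ℤ)
  rw [zpow_natCast] at this
  rw [this]
  simp [Matrix.trace, Fin.sum_univ_two]

/-- The linear map `(φ, m) ↦ (B_S, B_U)`. -/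
noncomputable def gb_Xi (Γ : Subgroup SL(2, ℤ)) :
    (parabolicHoms ℂ Γ ℂ × (SL(2, ℤ) ⧸ Γ → ℂ)) →ₗ[ℂ]
      (SL(2, ℤ) ⧸ Γ → ℂ) × (SL(2, ℤ) ⧸ Γ → ℂ) where
  toFun p := (gb_B (p.1 : Additive Γ →+ ℂ) p.2 ModularGroup.S,
    gb_B (p.1 : Additive Γ →+ ℂ) p.2 (ModularGroup.S * ModularGroup.T))
  map_add' p q := by
    ext x <;> simp [gb_B, gb_ext_add] <;> ring
  map_smul' c p := by
    ext x <;> simp [gb_B, gb_ext_smul] <;> ring

theorem gb_exists_smul (x : SL(2, ℤ) ⧸ Γ) :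
    ∃ g : SL(2, ℤ), g • ((1 : SL(2, ℤ)) : SL(2, ℤ) ⧸ Γ) = x := by
  induction x using QuotientGroup.induction_on with
  | H g => exact ⟨g, by show ((g * 1 : SL(2, ℤ)) : SL(2, ℤ) ⧸ Γ) = g; rw [mul_one]⟩

theorem gb_const {l : SL(2, ℤ) ⧸ Γ → ℂ} (h1 : l ∈ gb_inv ModularGroup.S)
    (h2 : l ∈ gb_inv ModularGroup.T) (x : SL(2, ℤ) ⧸ Γ) :
    l x = l ((1 : SL(2, ℤ)) : SL(2, ℤ) ⧸ Γ) := by
  have h : (⊤ : Subgroup SL(2, ℤ)) ≤ gb_stab (G := SL(2, ℤ)) l := by
    rw [← SpecialLinearGroup.SL2Z_generators, Subgroup.closure_le]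
    rintro g (rfl | rfl)
    · exact h1
    · exact h2
  obtain ⟨g, rfl⟩ := gb_exists_smul x
  exact h (Subgroup.mem_top g) _

theorem gb_Xi_ker (p : parabolicHoms ℂ Γ ℂ × (SL(2, ℤ) ⧸ Γ → ℂ)) (hp : gb_Xi Γ p = 0) :
    p.1 = 0 ∧ ∀ x, p.2 x = p.2 ((1 : SL(2, ℤ)) : SL(2, ℤ) ⧸ Γ) := by
  obtain ⟨⟨φ, hφ⟩, m⟩ := p
  simp only [gb_Xi, LinearMap.coe_mk, AddHom.coe_mk, Prod.mk_eq_zero] at hp
  obtain ⟨hS, hU⟩ := hp
  have hcoc := gb_B_isCoc φ m
  have htop : (⊤ : Subgroup SL(2, ℤ)) ≤ hcoc.ker := by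
    rw [← SpecialLinearGroup.SL2Z_generators, Subgroup.closure_le]
    rintro g (rfl | rfl)
    · exact fun x => congrFun hS x
    · intro x
      have h1 := hcoc ModularGroup.S ModularGroup.T x
      rw [hS, hU] at h1
      simpa using h1.symm
  have hall : ∀ g x, gb_B φ m g x = 0 := fun g x => htop (Subgroup.mem_top g) x
  set x0 : SL(2, ℤ) ⧸ Γ := ((1 : SL(2, ℤ)) : SL(2, ℤ) ⧸ Γ) with hx0
  have hout : (Quotient.out x0 : SL(2, ℤ)) ∈ Γ := by
    have h1 : ((Quotient.out x0 : SL(2, ℤ)) : SL(2, ℤ) ⧸ Γ) = ((1 : SL(2, ℤ)) : SL(2, ℤ) ⧸ Γ) :=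
      QuotientGroup.out_eq' x0
    rw [eq_comm, QuotientGroup.eq] at h1
    simpa using h1
  have hφ0 : φ = 0 := by
    refine AddMonoidHom.ext fun γ' => ?_
    obtain ⟨γ, rfl⟩ := Additive.ofMul.surjective γ'
    obtain ⟨γ, hγ⟩ := γ
    have hfix : γ • x0 = x0 := by
      show ((γ * 1 : SL(2, ℤ)) : SL(2, ℤ) ⧸ Γ) = ((1 : SL(2, ℤ)) : SL(2, ℤ) ⧸ Γ)
      rw [eq_comm, QuotientGroup.eq]
      simpa using hγ
    have h1 := hall γ x0
    unfold gb_B gb_kap at h1
    rw [hfix, gb_ext_mul φ (mul_mem (inv_mem hout) hγ) hout, gb_ext_mul φ (inv_mem hout) hγ] at h1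
    have h2 : gb_ext Γ φ (Quotient.out x0)⁻¹ + gb_ext Γ φ (Quotient.out x0) = 0 := by
      rw [← gb_ext_mul φ (inv_mem hout) hout, inv_mul_cancel, gb_ext_of_mem φ (one_mem Γ)]
      exact map_zero φ
    rw [gb_ext_of_mem φ hγ] at h1
    rw [AddMonoidHom.zero_apply]
    linear_combination h1 - h2
  refine ⟨by simpa using hφ0, fun x => ?_⟩
  obtain ⟨g, rfl⟩ := gb_exists_smul x
  have h1 := hall g x0
  unfold gb_B at h1
  rw [hφ0, gb_ext_of_mem 0 (gb_kap_mem _ _)] at h1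
  simp only [AddMonoidHom.zero_apply, zero_add] at h1
  exact sub_eq_zero.mp h1

theorem gb_finiteDimensional [Γ.FiniteIndex] : FiniteDimensional ℂ (parabolicHoms ℂ Γ ℂ) := by
  have : Finite (SL(2, ℤ) ⧸ Γ) := Subgroup.finite_quotient_of_finiteIndex
  refine FiniteDimensional.of_injective ((gb_Xi Γ).comp (LinearMap.inl ℂ _ _)) ?_
  rw [injective_iff_map_eq_zero]
  intro φ hφ
  exact (gb_Xi_ker (φ, 0) hφ).1

theorem gb_Xi_orth [Fintype (SL(2, ℤ) ⧸ Γ)] (hneg : -1 ∈ Γ)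
    (p : parabolicHoms ℂ Γ ℂ × (SL(2, ℤ) ⧸ Γ → ℂ)) :
    (∀ l ∈ gb_inv ModularGroup.S, ∑ x, l x * (gb_Xi Γ p).1 x = 0) ∧
    (∀ l ∈ gb_inv (ModularGroup.S * ModularGroup.T), ∑ x, l x * (gb_Xi Γ p).2 x = 0) ∧
    (∀ l ∈ gb_inv ModularGroup.T, ∑ x, l x * ((gb_Xi Γ p).2 x - (gb_Xi Γ p).1 x) = 0) := by
  obtain ⟨⟨φ, hφ⟩, m⟩ := p
  simp only [gb_Xi, LinearMap.coe_mk, AddHom.coe_mk]
  have hcoc := gb_B_isCoc φ m
  have hm1 : ∀ x, gb_B φ m (-1) x = 0 :=
    gb_B_eq_zero hφ m (-1) (gb_neg_one_smul hneg) gb_trace_neg_one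
  refine ⟨fun l hl => ?_, fun l hl => ?_, fun l hl => ?_⟩
  · refine gb_orth ModularGroup.S 2 two_pos _ (fun x => ?_) hl
    rw [← hcoc.pow, gb_S_sq, hm1]
  · refine gb_orth (ModularGroup.S * ModularGroup.T) 3 three_pos _ (fun x => ?_) hl
    rw [← hcoc.pow, gb_U_cube, hm1]
  · -- a positive `n` with `T ^ n` acting trivially
    set τ : Equiv.Perm (SL(2, ℤ) ⧸ Γ) := MulAction.toPerm ModularGroup.T with hτ
    have hn : 0 < orderOf τ := orderOf_pos τ
    have htriv : ∀ x : SL(2, ℤ) ⧸ Γ, ModularGroup.T ^ orderOf τ • x = x := by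
      intro x
      have h1 : (τ ^ orderOf τ) x = x := by rw [pow_orderOf_eq_one]; rfl
      have h2 : ∀ k : ℕ, (τ ^ k) x = ModularGroup.T ^ k • x := by
        intro k
        induction k with
        | zero => simp
        | succ k ih => rw [pow_succ', pow_succ', Equiv.Perm.mul_apply, ih, mul_smul]; rfl
      rw [← h2]; exact h1
    have hT : ∑ x, l x * gb_B φ m ModularGroup.T x = 0 := by
      refine gb_orth ModularGroup.T (orderOf τ) hn _ (fun x => ?_) hl
      rw [← hcoc.pow]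
      exact gb_B_eq_zero hφ m _ htriv (gb_trace_T_pow _) x
    have h3 : ∑ x, l x * gb_B φ m ModularGroup.S (ModularGroup.T • x)
        = ∑ x, l x * gb_B φ m ModularGroup.S x := by
      rw [← Equiv.sum_comp τ (fun x => l x * gb_B φ m ModularGroup.S x)]
      refine Finset.sum_congr rfl fun x _ => ?_
      rw [hτ, MulAction.toPerm_apply, hl x]
    have h4 : ∀ x, l x * (gb_B φ m (ModularGroup.S * ModularGroup.T) x - gb_B φ m ModularGroup.S x)
        = l x * gb_B φ m ModularGroup.S (ModularGroup.T • x) + l x * gb_B φ m ModularGroup.T x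
          - l x * gb_B φ m ModularGroup.S x := by
      intro x
      rw [hcoc]; ring
    rw [Finset.sum_congr rfl fun x _ => h4 x, Finset.sum_sub_distrib, Finset.sum_add_distrib, h3, hT]
    ring

end Final

theorem finrank_parabolicHoms_le (Γ : Subgroup SL(2, ℤ)) [Γ.FiniteIndex] (hneg : -1 ∈ Γ) :
    FiniteDimensional ℂ (parabolicHoms ℂ Γ ℂ) ∧
    6 * Module.finrank ℂ (parabolicHoms ℂ Γ ℂ)
      + 3 * Nat.card {x : SL(2, ℤ) ⧸ Γ // ModularGroup.S • x = x}
      + 4 * Nat.card {x : SL(2, ℤ) ⧸ Γ // (ModularGroup.S * ModularGroup.T) • x = x}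
      + 6 * Nat.card (MulAction.orbitRel.Quotient (Subgroup.zpowers ModularGroup.T) (SL(2, ℤ) ⧸ Γ))
      ≤ Γ.index + 12 := by
  classical
  have hfd : FiniteDimensional ℂ (parabolicHoms ℂ Γ ℂ) := gb_finiteDimensional
  refine ⟨hfd, ?_⟩
  have : Finite (SL(2, ℤ) ⧸ Γ) := Subgroup.finite_quotient_of_finiteIndex
  have : Fintype (SL(2, ℤ) ⧸ Γ) := Fintype.ofFinite _
  set x0 : SL(2, ℤ) ⧸ Γ := ((1 : SL(2, ℤ)) : SL(2, ℤ) ⧸ Γ) with hx0
  have hd : Γ.index = Fintype.card (SL(2, ℤ) ⧸ Γ) := by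
    rw [Subgroup.index, Nat.card_eq_fintype_card]
  -- step 1: the kernel of `Ξ`
  have h1 := gb_finrank_le_range_add_one (gb_Xi Γ) (0, fun _ => 1) (by
    intro p hp
    obtain ⟨hp1, hp2⟩ := gb_Xi_ker p hp
    refine ⟨p.2 x0, ?_⟩
    ext x
    · rw [hp1]; simp
    · simp [hp2 x, hx0])
  rw [Module.finrank_prod, Module.finrank_fintype_fun_eq_card] at h1
  -- step 2: the range of `Ξ`
  have h2 := gb_dim_bound x0 ModularGroup.S (ModularGroup.S * ModularGroup.T) ModularGroup.T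
    (fun l hl1 hl2 x => gb_const hl1 hl2 x) (LinearMap.range (gb_Xi Γ)) (by
      rintro w ⟨p, rfl⟩
      exact gb_Xi_orth hneg p)
  -- step 3: dimensions of the invariants
  have h3 := gb_card_inv (X := SL(2, ℤ) ⧸ Γ) ModularGroup.S 2 two_pos (fun x => by
    rw [gb_S_sq, gb_neg_one_smul hneg])
  have h4 := gb_card_inv (X := SL(2, ℤ) ⧸ Γ) (ModularGroup.S * ModularGroup.T) 3 three_pos
    (fun x => by rw [gb_U_cube, gb_neg_one_smul hneg])
  have h5 : finrank ℂ (gb_inv (X := SL(2, ℤ) ⧸ Γ) ModularGroup.T) = Nat.card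
      (MulAction.orbitRel.Quotient (Subgroup.zpowers ModularGroup.T) (SL(2, ℤ) ⧸ Γ)) :=
    gb_finrank_inv_eq_card_orbits (X := SL(2, ℤ) ⧸ Γ) ModularGroup.T
  have hall : ∀ g : SL(2, ℤ), Fintype.card {x : SL(2, ℤ) ⧸ Γ // g ^ 0 • x = x}
      = Fintype.card (SL(2, ℤ) ⧸ Γ) := by
    intro g
    exact Fintype.card_congr (Equiv.subtypeUnivEquiv fun x => by simp)
  have hone : ∀ g : SL(2, ℤ), Fintype.card {x : SL(2, ℤ) ⧸ Γ // g ^ 1 • x = x}
      = Nat.card {x : SL(2, ℤ) ⧸ Γ // g • x = x} := by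
    intro g
    rw [Nat.card_eq_fintype_card]
    exact Fintype.card_congr (Equiv.subtypeEquivRight fun x => by simp)
  have htwo : Fintype.card {x : SL(2, ℤ) ⧸ Γ // (ModularGroup.S * ModularGroup.T) ^ 2 • x = x}
      = Nat.card {x : SL(2, ℤ) ⧸ Γ // (ModularGroup.S * ModularGroup.T) • x = x} := by
    rw [Nat.card_eq_fintype_card]
    refine Fintype.card_congr (Equiv.subtypeEquivRight fun x => ⟨fun h => ?_, fun h => ?_⟩)
    · have h6 : (ModularGroup.S * ModularGroup.T) ^ 3 • x = x := by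
        rw [gb_U_cube, gb_neg_one_smul hneg]
      rw [pow_succ', mul_smul, h] at h6
      exact h6
    · rw [pow_two, mul_smul, h, h]
  rw [Finset.sum_range_succ, Finset.sum_range_succ, Finset.sum_range_zero, hall, hone] at h3
  rw [Finset.sum_range_succ, Finset.sum_range_succ, Finset.sum_range_succ, Finset.sum_range_zero,
    hall, hone, htwo] at h4
  omega

end Fermat.Agent.S21Lib
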