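import Mathlib

/-!
# A maximum principle for functions on the upper half plane (piece (B) of S21)

`K : ℍ → ℂ` whose real part is invariant under a finite index subgroup `Γ ≤ SL(2,ℤ)` and which is
"holomorphic at all cusps" (for all `δ`, `K (δ • w) = Φ (q_M w)` with `Φ` holomorphic on the unit
disc) is constant.
-/

open UpperHalfPlane Complex Metric Function Filter Topology
open scoped MatrixGroups Modular

namespace Fermat.Agent.S21Lib

/-- `K` is given near every cusp by a holomorphic function of a local parameter `q_M`. -/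
def QHol (K : ℍ → ℂ) : Prop :=
  ∀ δ : SL(2, ℤ), ∃ (M : ℕ) (_ : 0 < M) (Φ : ℂ → ℂ), DifferentiableOn ℂ Φ (ball 0 1) ∧
    ∀ w : ℍ, K (δ • w) = Φ (Function.Periodic.qParam M w)

/-- A holomorphic function on the unit disc whose real part has an interior maximum is constant. -/
theorem mp_const_of_re_max {Φ : ℂ → ℂ} (hΦ : DifferentiableOn ℂ Φ (ball 0 1)) {p : ℂ}
    (hp : p ∈ ball (0 : ℂ) 1) (hmax : ∀ q ∈ ball (0 : ℂ) 1, (Φ q).re ≤ (Φ p).re) :
    ∀ q ∈ ball (0 : ℂ) 1, Φ q = Φ p := by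
  have hconn : IsPreconnected (ball (0 : ℂ) 1) := (convex_ball 0 1).isPreconnected
  have hd : DifferentiableOn ℂ (fun q => Complex.exp (Φ q)) (ball 0 1) := hΦ.cexp
  have hm : IsMaxOn (norm ∘ fun q => Complex.exp (Φ q)) (ball 0 1) p := by
    intro q hq
    simp only [Function.comp, Complex.norm_exp, Set.mem_ofPred_eq]
    exact Real.exp_le_exp.mpr (hmax q hq)
  have heq := Complex.eqOn_of_isPreconnected_of_isMaxOn_norm hconn isOpen_ball hd hp hm
  have hderiv : (ball (0 : ℂ) 1).EqOn (deriv Φ) 0 := by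
    intro q hq
    have hΦq : DifferentiableAt ℂ Φ q := hΦ.differentiableAt (isOpen_ball.mem_nhds hq)
    have h1 : HasDerivAt (fun q => Complex.exp (Φ q)) (Complex.exp (Φ q) * deriv Φ q) q :=
      hΦq.hasDerivAt.cexp
    have h2 : HasDerivAt (fun q => Complex.exp (Φ q)) 0 q := by
      have : (fun q => Complex.exp (Φ q)) =ᶠ[𝓝 q] fun _ => Complex.exp (Φ p) := by
        filter_upwards [isOpen_ball.mem_nhds hq] with x hx using heq hx
      exact (hasDerivAt_const q _).congr_of_eventuallyEq this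
    have h3 := h1.unique h2
    simpa [Complex.exp_ne_zero] using h3
  intro q hq
  exact isOpen_ball.is_const_of_deriv_eq_zero hconn hΦ hderiv hq hp

theorem mp_norm_qParam_le {M : ℕ} (hM : 0 < M) {z : ℍ} (hz : z ∈ 𝒟) :
    ‖Function.Periodic.qParam M z‖ ≤ Real.exp (-Real.pi / M) := by
  rw [Function.Periodic.norm_qParam]
  apply Real.exp_le_exp.mpr
  have hM' : (0 : ℝ) < M := by exact_mod_cast hM
  have him : (1 : ℝ) / 2 ≤ z.im := by
    have h3 := ModularGroup.three_le_four_mul_im_sq_of_mem_fd hz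
    have hpos := z.im_pos
    nlinarith
  have hpi := Real.pi_pos
  rw [div_le_div_iff_of_pos_right hM']
  have : (z : ℂ).im = z.im := rfl
  rw [this]
  nlinarith

/-- The maximum principle. -/
theorem const_of_re_invariant (Γ : Subgroup SL(2, ℤ)) [Γ.FiniteIndex] (K : ℍ → ℂ)
    (hinv : ∀ γ ∈ Γ, ∀ z : ℍ, (K (γ • z)).re = (K z).re) (hq : QHol K) :
    ∀ z w : ℍ, K z = K w := by
  classical
  choose M hM Φ hΦ hK using hq
  have : Finite (SL(2, ℤ) ⧸ Γ) := Subgroup.finite_quotient_of_finiteIndex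
  -- representatives
  let r : SL(2, ℤ) ⧸ Γ → SL(2, ℤ) := fun x => (Quotient.out x)⁻¹
  let ρ : SL(2, ℤ) ⧸ Γ → ℝ := fun x => Real.exp (-Real.pi / M (r x))
  have hρ : ∀ x, ρ x < 1 := by
    intro x
    have hM' : (0 : ℝ) < M (r x) := by exact_mod_cast hM (r x)
    apply Real.exp_lt_one_iff.mpr
    exact div_neg_of_neg_of_pos (by linarith [Real.pi_pos]) hM'
  have hρ0 : ∀ x, 0 ≤ ρ x := fun x => (Real.exp_pos _).le
  -- the max on each closed ball
  have hmaxx : ∀ x, ∃ p ∈ closedBall (0 : ℂ) (ρ x), ∀ q ∈ closedBall (0 : ℂ) (ρ x),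
      (Φ (r x) q).re ≤ (Φ (r x) p).re := by
    intro x
    have hcont : ContinuousOn (fun q => (Φ (r x) q).re) (closedBall (0 : ℂ) (ρ x)) := by
      have h1 : ContinuousOn (Φ (r x)) (closedBall (0 : ℂ) (ρ x)) :=
        (hΦ (r x)).continuousOn.mono (closedBall_subset_ball (hρ x))
      exact Complex.continuous_re.comp_continuousOn h1
    obtain ⟨p, hp, hpm⟩ := (isCompact_closedBall (0 : ℂ) (ρ x)).exists_isMaxOn
      ⟨0, mem_closedBall_self (hρ0 x)⟩ hcont
    exact ⟨p, hp, fun q hq => hpm hq⟩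
  choose p hp hpmax using hmaxx
  obtain ⟨x₀, hx₀⟩ := Finite.exists_max (fun x => (Φ (r x) (p x)).re)
  -- global bound
  have hglob : ∀ z : ℍ, (K z).re ≤ (Φ (r x₀) (p x₀)).re := by
    intro z
    obtain ⟨g, hg⟩ := ModularGroup.exists_smul_mem_fd z
    set x : SL(2, ℤ) ⧸ Γ := QuotientGroup.mk g with hx
    have hγ : (Quotient.out x)⁻¹ * g ∈ Γ := by
      have : (QuotientGroup.mk (Quotient.out x) : SL(2, ℤ) ⧸ Γ) = QuotientGroup.mk g := by
        rw [← hx]; exact Quotient.out_eq' x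
      exact QuotientGroup.eq.mp this
    have hz : z = ((Quotient.out x)⁻¹ * g)⁻¹ • (r x • (g • z)) := by
      simp only [r, smul_smul]
      simp
    have h1 : (K z).re = (K (r x • (g • z))).re := by
      conv_lhs => rw [hz]
      exact hinv _ (Γ.inv_mem hγ) _
    rw [h1, hK]
    refine le_trans (hpmax x _ ?_) (hx₀ x)
    rw [mem_closedBall_zero_iff]
    exact mp_norm_qParam_le (hM _) hg
  -- the bound on the whole unit disc
  have hne : ∀ q ∈ ball (0 : ℂ) 1, q ≠ 0 → (Φ (r x₀) q).re ≤ (Φ (r x₀) (p x₀)).re := by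
    intro q hq hq0
    have hM' : (0 : ℝ) < M (r x₀) := by exact_mod_cast hM (r x₀)
    have him : 0 < (Function.Periodic.invQParam (M (r x₀)) q).im :=
      Function.Periodic.im_invQParam_pos_of_norm_lt_one hM' (mem_ball_zero_iff.mp hq) hq0
    have := hglob (r x₀ • ⟨_, him⟩)
    rw [hK] at this
    rwa [UpperHalfPlane.coe_mk, Function.Periodic.qParam_right_inv hM'.ne' hq0] at this
  have hall : ∀ q ∈ ball (0 : ℂ) 1, (Φ (r x₀) q).re ≤ (Φ (r x₀) (p x₀)).re := by
    intro q hq
    by_cases hq0 : q = 0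
    · subst hq0
      have hcont : ContinuousAt (fun q => (Φ (r x₀) q).re) 0 :=
        Complex.continuous_re.continuousAt.comp
          ((hΦ (r x₀)).differentiableAt (isOpen_ball.mem_nhds hq)).continuousAt
      have ht : Tendsto (fun q => (Φ (r x₀) q).re) (𝓝[≠] 0) (𝓝 (Φ (r x₀) 0).re) :=
        hcont.tendsto.mono_left nhdsWithin_le_nhds
      refine le_of_tendsto ht ?_
      filter_upwards [self_mem_nhdsWithin, nhdsWithin_le_nhds (isOpen_ball.mem_nhds hq)]
        with y hy hy' using hne y hy' hy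
    · exact hne q hq hq0
  have hconst := mp_const_of_re_max (hΦ (r x₀))
    (closedBall_subset_ball (hρ x₀) (hp x₀)) hall
  have hKc : ∀ z : ℍ, K z = Φ (r x₀) (p x₀) := by
    intro z
    have hM' : (0 : ℝ) < M (r x₀) := by exact_mod_cast hM (r x₀)
    have hz : z = r x₀ • ((r x₀)⁻¹ • z) := by simp
    rw [hz, hK]
    apply hconst
    rw [mem_ball_zero_iff]
    exact Function.Periodic.norm_qParam_lt_one hM' (UpperHalfPlane.im_pos _)
  intro z w
  rw [hKc z, hKc w]

end Fermat.Agent.S21Lib
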