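import Mathlib
import Fermat.Prelude.Def_ModularCurve_PeriodHomPair
import Fermat.Agent.S21.MaxPrinciple

/-!
# Injectivity of the period pairing (piece (B) of S21)
-/

open UpperHalfPlane Complex Metric Function Filter Topology CongruenceSubgroup
open ModularCurve ModularCurve.Period
open scoped MatrixGroups ComplexConjugate

namespace Fermat.Agent.S21Lib

theorem inj_qParam_pow (M M' : ℕ) (hM : 0 < M) (hM' : 0 < M') (w : ℂ) :
    Function.Periodic.qParam ((M * M' : ℕ) : ℝ) w ^ M' = Function.Periodic.qParam (M : ℝ) w := by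
  simp only [Function.Periodic.qParam, ← Complex.exp_nat_mul]
  congr 1
  have h1 : (M : ℂ) ≠ 0 := by exact_mod_cast hM.ne'
  have h2 : (M' : ℂ) ≠ 0 := by exact_mod_cast hM'.ne'
  push_cast
  field_simp

theorem inj_mapsTo_pow (n : ℕ) (hn : 0 < n) :
    Set.MapsTo (fun q : ℂ => q ^ n) (ball 0 1) (ball 0 1) := by
  intro q hq
  rw [mem_ball_zero_iff] at hq ⊢
  rw [norm_pow]
  exact pow_lt_one₀ (norm_nonneg _) hq hn.ne'

theorem QHol.add {K₁ K₂ : ℍ → ℂ} (h₁ : QHol K₁) (h₂ : QHol K₂) :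
    QHol (fun z => K₁ z + K₂ z) := by
  intro δ
  obtain ⟨M₁, hM₁, Φ₁, hΦ₁, hK₁⟩ := h₁ δ
  obtain ⟨M₂, hM₂, Φ₂, hΦ₂, hK₂⟩ := h₂ δ
  refine ⟨M₁ * M₂, Nat.mul_pos hM₁ hM₂, fun q => Φ₁ (q ^ M₂) + Φ₂ (q ^ M₁), ?_, ?_⟩
  · exact (hΦ₁.comp (differentiable_pow _).differentiableOn (inj_mapsTo_pow _ hM₂)).add
      (hΦ₂.comp (differentiable_pow _).differentiableOn (inj_mapsTo_pow _ hM₁))
  · intro w
    simp only
    rw [hK₁, hK₂, inj_qParam_pow _ _ hM₁ hM₂, mul_comm M₁ M₂, inj_qParam_pow _ _ hM₂ hM₁]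

theorem QHol.const_mul {K : ℍ → ℂ} (h : QHol K) (a : ℂ) : QHol (fun z => a * K z) := by
  intro δ
  obtain ⟨M, hM, Φ, hΦ, hK⟩ := h δ
  exact ⟨M, hM, fun q => a * Φ q, hΦ.const_mul a, fun w => by simp only [hK]⟩

theorem inj_jConj_smul_J (δ : SL(2, ℤ)) (z : ℍ) : jConjSL δ • (J • z) = J • (δ • z) := by
  apply UpperHalfPlane.ext
  rw [coe_J_smul, coe_specialLinearGroup_apply, coe_specialLinearGroup_apply, coe_J_smul]
  have h00 : (jConjSL δ) 0 0 = δ 0 0 := by
    show (jConjSL δ : Matrix (Fin 2) (Fin 2) ℤ) 0 0 = _; simp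
  have h01 : (jConjSL δ) 0 1 = - δ 0 1 := by
    show (jConjSL δ : Matrix (Fin 2) (Fin 2) ℤ) 0 1 = _; simp
  have h10 : (jConjSL δ) 1 0 = - δ 1 0 := by
    show (jConjSL δ : Matrix (Fin 2) (Fin 2) ℤ) 1 0 = _; simp
  have h11 : (jConjSL δ) 1 1 = δ 1 1 := by
    show (jConjSL δ : Matrix (Fin 2) (Fin 2) ℤ) 1 1 = _; simp
  rw [h00, h01, h10, h11]
  simp only [map_div₀, map_add, map_mul, algebraMap_int_eq, eq_intCast,
    Int.cast_neg, Complex.ofReal_neg, Complex.ofReal_intCast, map_intCast]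
  rw [← neg_div]
  congr 1 <;> ring

theorem inj_qParam_J (M : ℝ) (w : ℍ) :
    Function.Periodic.qParam M ((J • w : ℍ) : ℂ) = conj (Function.Periodic.qParam M (w : ℂ)) := by
  rw [coe_J_smul]
  simp only [Function.Periodic.qParam, ← Complex.exp_conj]
  congr 1
  simp only [map_div₀, map_mul, Complex.conj_ofReal, Complex.conj_I, map_ofNat]
  ring

theorem QHol.sharp {K : ℍ → ℂ} (h : QHol K) : QHol (fun z => conj (K (J • z))) := by
  intro δ
  obtain ⟨M, hM, Φ, hΦ, hK⟩ := h (jConjSL δ)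
  refine ⟨M, hM, conj ∘ Φ ∘ conj, ?_, ?_⟩
  · intro q hq
    have hq' : conj q ∈ ball (0 : ℂ) 1 := by
      rw [mem_ball_zero_iff] at hq ⊢
      rwa [RCLike.norm_conj]
    have h1 : DifferentiableAt ℂ Φ (conj q) := hΦ.differentiableAt (isOpen_ball.mem_nhds hq')
    exact (differentiableAt_conj_conj_iff.mpr h1).differentiableWithinAt
  · intro w
    simp only [Function.comp]
    rw [← inj_jConj_smul_J, hK, inj_qParam_J]

/-- Key step: if `(1 + ε ι) P(f) = 0` (`ε = ±1`) then `f = 0`. -/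
theorem inj_eq_zero_of_symm (N : ℕ) [NeZero N] (f : CuspForm (Gamma0 N) 2) (F : ℍ → ℂ)
    (hF : HasEquivariantPrimitive N f F) (hq : QHol F) (ε : ℝ) (hε : ε ^ 2 = 1)
    (h : ∀ γ : Gamma0 N, hF.2.2.1.period γ + ε * hF.2.2.1.period (jConjGamma0 N γ) = 0) :
    f = 0 := by
  have hE := hF.2.2.1
  -- the auxiliary functions
  have hconst : ∀ a : ℂ, ∀ z w : ℍ,
      a * F z + (ε * conj a) * conj (F (J • z)) = a * F w + (ε * conj a) * conj (F (J • w)) := by
    intro a
    refine const_of_re_invariant (Gamma0 N)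
      (fun z => a * F z + (ε * conj a) * conj (F (J • z))) ?_
      ((hq.const_mul a).add (hq.sharp.const_mul _))
    intro γ hγ z
    have h1 := hE.sub_eq_period ⟨γ, hγ⟩ z
    have h2 := hE.sub_eq_period (jConjGamma0 N ⟨γ, hγ⟩) (J • z)
    have h3 := h ⟨γ, hγ⟩
    simp only [jConjGamma0_coe] at h1 h2
    rw [inj_jConj_smul_J] at h2
    set p := hE.period ⟨γ, hγ⟩
    set p' := hE.period (jConjGamma0 N ⟨γ, hγ⟩)
    have hp' : p' = -ε * p := by
      have hε' : (ε : ℂ) ^ 2 = 1 := by exact_mod_cast hε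
      linear_combination (ε : ℂ) * h3 - p' * hε'
    have e1 : F (γ • z) = F z + p := by linear_combination h1
    have e2 : F (J • (γ • z)) = F (J • z) + p' := by linear_combination h2
    rw [e1, e2, hp']
    have hε' : (ε : ℂ) ^ 2 = 1 := by exact_mod_cast hε
    have key : a * (F z + p) + (ε * conj a) * conj (F (J • z) + -ε * p)
        = (a * F z + (ε * conj a) * conj (F (J • z))) + (a * p - conj (a * p)) := by
      simp only [map_add, map_mul, map_neg, Complex.conj_ofReal]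
      linear_combination (-(conj a) * conj p) * hε'
    rw [key, Complex.add_re]
    have : (a * p - conj (a * p)).re = 0 := by simp
    rw [this, add_zero]
  have hFc : ∀ z w : ℍ, F z = F w := by
    intro z w
    have h1 := hconst 1 z w
    have h2 := hconst Complex.I z w
    simp only [map_one, Complex.conj_I] at h1 h2
    have hI : Complex.I * Complex.I = -1 := Complex.I_mul_I
    linear_combination (1 / 2 : ℂ) * h1 - (1 / 2 : ℂ) * Complex.I * h2
      + ((1 / 2 : ℂ) * (F z - F w) - (1 / 2 : ℂ) * ε * (conj (F (J • z)) - conj (F (J • w)))) *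
        hI
  ext τ
  have hd := hF.1 τ
  have hc : (F ∘ ofComplex) = fun _ => F UpperHalfPlane.I := by
    funext x; exact hFc _ _
  rw [hc] at hd
  simpa using hd.unique (hasDerivAt_const _ _)

/-- Injectivity of `periodHomPair`, given the outputs of piece (A). -/
theorem periodHomPair_injective_of (N : ℕ) [NeZero N]
    (hex : ∀ f : CuspForm (Gamma0 N) 2, ∃ F : ℍ → ℂ, HasEquivariantPrimitive N f F ∧ QHol F)
    (happ : ∀ (f : CuspForm (Gamma0 N) 2) (F : ℍ → ℂ) (_ : HasEquivariantPrimitive N f F)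
      (γ : Gamma0 N) (z : ℍ), periodMap N f (Additive.ofMul γ) = F ((γ : SL(2, ℤ)) • z) - F z)
    (hlin : ExistsPeriodMapLinear N) : Function.Injective (periodHomPair N) := by
  obtain ⟨pml, hpml, heq⟩ := periodHomPair_def N hlin
  rw [heq, injective_iff_map_eq_zero]
  rintro ⟨f, g⟩ hfg
  have H : ∀ γ : Gamma0 N, periodMap N f (Additive.ofMul γ)
      + periodMap N f (Additive.ofMul (jConjGamma0 N γ))
      + (periodMap N g (Additive.ofMul γ) - periodMap N g (Additive.ofMul (jConjGamma0 N γ)))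
      = 0 := by
    intro γ
    have := DFunLike.congr_fun hfg (Additive.ofMul γ)
    simpa [hpml] using this
  have key : ∀ (f : CuspForm (Gamma0 N) 2) (ε : ℝ), ε ^ 2 = 1 →
      (∀ γ : Gamma0 N, periodMap N f (Additive.ofMul γ)
        + ε * periodMap N f (Additive.ofMul (jConjGamma0 N γ)) = 0) → f = 0 := by
    intro f ε hε hh
    obtain ⟨F, hF, hq⟩ := hex f
    refine inj_eq_zero_of_symm N f F hF hq ε hε ?_
    intro γ
    have h1 := happ f F hF γ UpperHalfPlane.I
    have h2 := happ f F hF (jConjGamma0 N γ) UpperHalfPlane.I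
    have := hh γ
    rw [h1, h2] at this
    exact this
  have hf : f = 0 := by
    refine key f 1 (by norm_num) ?_
    intro γ
    have h1 := H γ
    have h2 := H (jConjGamma0 N γ)
    rw [jConjGamma0_jConjGamma0] at h2
    push_cast
    linear_combination (1 / 2 : ℂ) * h1 + (1 / 2 : ℂ) * h2
  have hg : g = 0 := by
    refine key g (-1) (by norm_num) ?_
    intro γ
    have h1 := H γ
    have h2 := H (jConjGamma0 N γ)
    rw [jConjGamma0_jConjGamma0] at h2
    push_cast
    linear_combination (1 / 2 : ℂ) * h1 - (1 / 2 : ℂ) * h2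
  rw [hf, hg]
  rfl

end Fermat.Agent.S21Lib
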