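import Mathlib
import Fermat.Prelude.Def_ModularCurve_PeriodHomPair
import Fermat.Prelude.Thm_Subgroup_IsArithmetic_exists_nat_mem_strictPeriods_conj
import Fermat.Prelude.Thm_CongruenceSubgroup_one_mem_strictPeriods_Gamma0
import Fermat.Agent.S22.Main.Poly
import Fermat.Agent.S22.Main.Primitive
import Fermat.Agent.S21.MaxPrinciple

set_option autoImplicit false

/-! Equivariant primitives of weight two cusp forms. -/

namespace Fermat.Agent.S21Lib

open UpperHalfPlane Derivative Filter Function Matrix.SpecialLinearGroup CongruenceSubgroup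
open ModularCurve ModularCurve.Period
open Fermat.Agent.S22Main (CuspLike eq_const_of_D_eq_zero)
open scoped ModularForm Manifold MatrixGroups Topology Pointwise

noncomputable section

variable {N : ℕ} [NeZero N]

theorem cuspLike_coe (f : CuspForm (Gamma0 N) 2) : CuspLike 1 f :=
  ⟨CuspFormClass.holo f,
    SlashInvariantFormClass.periodic_comp_ofComplex f (one_mem_strictPeriods_Gamma0 N),
    CuspFormClass.zero_at_infty f⟩

theorem slash_zero_apply (E : ℍ → ℂ) (δ : SL(2, ℤ)) (w : ℍ) : (E ∣[(0 : ℤ)] δ) w = E (δ • w) := by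
  rw [ModularForm.SL_slash_apply]
  simp

theorem D_slash_zero {E : ℍ → ℂ} (hE : MDiff E) (δ : SL(2, ℤ)) :
    D (E ∣[(0 : ℤ)] δ) = (D E) ∣[(2 : ℤ)] δ := by
  rw [normalizedDerivOfComplex_SL_slash hE]
  ext z
  simp

theorem hasDerivAt_of_D_eq {E g : ℍ → ℂ} (hE : MDiff E) (h : D E = g) (τ : ℍ) :
    HasDerivAt (((2 * Real.pi * Complex.I : ℂ)⁻¹ • E) ∘ ofComplex) (g τ) ↑τ := by
  have h1 : HasDerivAt (E ∘ ofComplex) (deriv (E ∘ ofComplex) τ) τ :=
    (mdifferentiableAt_iff.mp (hE τ)).hasDerivAt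
  have h2 := h1.const_mul ((2 * Real.pi * Complex.I : ℂ)⁻¹)
  have h3 : g τ = (2 * Real.pi * Complex.I : ℂ)⁻¹ * deriv (E ∘ ofComplex) τ := by
    rw [← h]; rfl
  rw [h3]
  exact h2

/-- translates of a cusp form are cusp-like. -/
theorem exists_cuspLike_slash (f : CuspForm (Gamma0 N) 2) (δ : SL(2, ℤ)) :
    ∃ M : ℕ, 0 < M ∧ CuspLike (M : ℝ) ((f : ℍ → ℂ) ∣[(2 : ℤ)] δ) := by
  obtain ⟨M, hM, hper⟩ := Subgroup.IsArithmetic.exists_nat_mem_strictPeriods_conj
    (Gamma0 N : Subgroup (GL (Fin 2) ℝ))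
  have hMσ : (M : ℝ) ∈ (ConjAct.toConjAct (mapGL ℝ δ)⁻¹ •
      (Gamma0 N : Subgroup (GL (Fin 2) ℝ))).strictPeriods := by
    have := hper δ⁻¹
    rwa [map_inv] at this
  have hM' : (0 : ℝ) < M := by exact_mod_cast hM
  set g := CuspForm.translate f (mapGL ℝ δ) with hg
  have hgcoe : (g : ℍ → ℂ) = (f : ℍ → ℂ) ∣[(2 : ℤ)] δ := rfl
  have : Fact (IsCusp OnePoint.infty (ConjAct.toConjAct (mapGL ℝ δ)⁻¹ •
      (Gamma0 N : Subgroup (GL (Fin 2) ℝ)))) := ⟨Subgroup.isCusp_of_mem_strictPeriods hM' hMσ⟩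
  refine ⟨M, hM, ?_⟩
  rw [← hgcoe]
  exact ⟨CuspFormClass.holo g, SlashInvariantFormClass.periodic_comp_ofComplex g hMσ,
      CuspFormClass.zero_at_infty g⟩

theorem cuspLike_eq_cuspFunction {h : ℝ} (hh : 0 < h) {G : ℍ → ℂ} (hG : CuspLike h G) (w : ℍ) :
    G w = cuspFunction h G (Function.Periodic.qParam h w) :=
  (eq_cuspFunction w hh.ne' hG.per).symm

theorem cuspLike_differentiableOn {h : ℝ} (hh : 0 < h) {G : ℍ → ℂ}
    (hG : CuspLike h G) : DifferentiableOn ℂ (cuspFunction h G) (Metric.ball 0 1) :=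
  differentiableOn_cuspFunction_ball hh hG.per hG.mdiff hG.zero.isBoundedAtImInfty

theorem QHol.tendsto {H : ℍ → ℂ} (hH : QHol H) (δ : SL(2, ℤ)) :
    ∃ L : ℂ, Tendsto (fun w : ℍ => H (δ • w)) atImInfty (𝓝 L) := by
  obtain ⟨h, hh, Φ, hΦ, hH'⟩ := hH δ
  refine ⟨Φ 0, ?_⟩
  have hc : ContinuousAt Φ 0 :=
    (hΦ.differentiableAt (Metric.ball_mem_nhds 0 one_pos)).continuousAt
  have hh' : (0 : ℝ) < h := by exact_mod_cast hh
  have := hc.tendsto.comp (qParam_tendsto_atImInfty hh')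
  refine this.congr fun w => ?_
  rw [hH' w]
  rfl

/-- Existence of the equivariant primitive, holomorphic in `q` at all cusps. -/
theorem exists_primitive (f : CuspForm (Gamma0 N) 2) :
    ∃ F : ℍ → ℂ, HasEquivariantPrimitive N f F ∧ QHol F := by
  obtain ⟨E, hE, hDE⟩ := (cuspLike_coe f).exists_primitive one_pos
  set c₀ : ℂ := (2 * Real.pi * Complex.I : ℂ)⁻¹ with hc₀
  have key : ∀ δ : SL(2, ℤ), ∃ (M : ℕ) (_ : 0 < M) (G : ℍ → ℂ) (c : ℂ), CuspLike (M : ℝ) G ∧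
      D G = (f : ℍ → ℂ) ∣[(2 : ℤ)] δ ∧ ∀ w : ℍ, E (δ • w) = G w + c := by
    intro δ
    obtain ⟨M, hM, hg⟩ := exists_cuspLike_slash f δ
    obtain ⟨G, hG, hDG⟩ := hg.exists_primitive (by exact_mod_cast hM)
    have hEs : MDiff (E ∣[(0 : ℤ)] δ) := hE.mdiff.slash _ _
    have h0 : D (E ∣[(0 : ℤ)] δ - G) = 0 := by
      rw [normalizedDerivOfComplex_sub _ _ hEs hG.mdiff, D_slash_zero hE.mdiff, hDE, hDG, sub_self]
    obtain ⟨c, hc⟩ := eq_const_of_D_eq_zero (hEs.sub hG.mdiff) h0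
    refine ⟨M, hM, G, c, hG, hDG, fun w => ?_⟩
    have := congrFun hc w
    simp only [Pi.sub_apply, slash_zero_apply] at this
    linear_combination this
  have hq : QHol (c₀ • E) := by
    intro δ
    obtain ⟨M, hM, G, c, hG, -, hEG⟩ := key δ
    have hM' : (0 : ℝ) < M := by exact_mod_cast hM
    refine ⟨M, hM, fun q => c₀ * (cuspFunction M G q + c), ?_, fun w => ?_⟩
    · exact ((cuspLike_differentiableOn hM' hG).add_const c).const_mul c₀
    · simp only [Pi.smul_apply, smul_eq_mul]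
      rw [hEG w, cuspLike_eq_cuspFunction hM' hG w]
  refine ⟨c₀ • E, ⟨hasDerivAt_of_D_eq hE.mdiff hDE, ?_, ?_, hq.tendsto⟩, hq⟩
  · have := hE.zero.const_smul c₀
    rw [smul_zero] at this
    exact this
  · intro γ
    have hEs : MDiff (E ∣[(0 : ℤ)] (γ : SL(2, ℤ))) := hE.mdiff.slash _ _
    have hfγ : (f : ℍ → ℂ) ∣[(2 : ℤ)] (γ : SL(2, ℤ)) = f :=
      SlashInvariantFormClass.slash_action_eq f _ ⟨γ, γ.2, rfl⟩
    have h0 : D (E ∣[(0 : ℤ)] (γ : SL(2, ℤ)) - E) = 0 := by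
      rw [normalizedDerivOfComplex_sub _ _ hEs hE.mdiff, D_slash_zero hE.mdiff, hDE, hfγ, sub_self]
    obtain ⟨c, hc⟩ := eq_const_of_D_eq_zero (hEs.sub hE.mdiff) h0
    refine ⟨c₀ * c, fun z => ?_⟩
    have := congrFun hc z
    simp only [Pi.sub_apply, slash_zero_apply] at this
    simp only [Pi.smul_apply, smul_eq_mul]
    rw [← this]
    ring

/-- Uniqueness of primitives vanishing at `i∞`. -/
theorem primitive_unique {g : ℍ → ℂ} {F₁ F₂ : ℍ → ℂ}
    (h₁ : ∀ τ : ℍ, HasDerivAt (F₁ ∘ ofComplex) (g τ) ↑τ)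
    (h₂ : ∀ τ : ℍ, HasDerivAt (F₂ ∘ ofComplex) (g τ) ↑τ)
    (z₁ : Tendsto F₁ atImInfty (𝓝 0)) (z₂ : Tendsto F₂ atImInfty (𝓝 0)) : F₁ = F₂ := by
  have hd : ∀ τ : ℍ, HasDerivAt ((F₁ - F₂) ∘ ofComplex) 0 ↑τ := by
    intro τ
    have := (h₁ τ).sub (h₂ τ)
    rw [sub_self] at this
    exact this
  have hm : MDiff (F₁ - F₂) := fun τ => mdifferentiableAt_iff.mpr (hd τ).differentiableAt
  have hD : D (F₁ - F₂) = 0 := by
    ext τ
    simp only [normalizedDerivOfComplex, (hd τ).deriv, mul_zero, Pi.zero_apply]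
  obtain ⟨c, hc⟩ := eq_const_of_D_eq_zero hm hD
  have ht : Tendsto (F₁ - F₂) atImInfty (𝓝 0) := by
    have := z₁.sub z₂
    rwa [sub_zero] at this
  rw [hc] at ht
  have hc0 : c = 0 := tendsto_nhds_unique tendsto_const_nhds ht
  ext τ
  have := congrFun hc τ
  rw [hc0] at this
  exact sub_eq_zero.mp this

omit [NeZero N] in
theorem periodMap_apply {f : CuspForm (Gamma0 N) 2} {F : ℍ → ℂ}
    (hF : HasEquivariantPrimitive N f F) (γ : Gamma0 N) (z : ℍ) :
    periodMap N f (Additive.ofMul γ) = F ((γ : SL(2, ℤ)) • z) - F z := by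
  obtain ⟨F₀, h₀, hp⟩ := periodMap_def N f hF
  have hEq : F₀ = F := primitive_unique h₀.1 hF.1 h₀.2.1 hF.2.1
  subst hEq
  rw [hp, IsEquivariantPrimitive.periodHom_apply, ← h₀.2.2.1.sub_eq_period γ z]

omit [NeZero N] in
theorem hasEquivariantPrimitive_add {f g : CuspForm (Gamma0 N) 2} {F G : ℍ → ℂ}
    (hF : HasEquivariantPrimitive N f F) (hG : HasEquivariantPrimitive N g G) :
    HasEquivariantPrimitive N (f + g) (F + G) := by
  refine ⟨fun τ => (hF.1 τ).add (hG.1 τ), ?_, ?_, ?_⟩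
  · have := hF.2.1.add hG.2.1
    rwa [add_zero] at this
  · intro γ
    obtain ⟨c, hc⟩ := hF.2.2.1 γ
    obtain ⟨c', hc'⟩ := hG.2.2.1 γ
    refine ⟨c + c', fun z => ?_⟩
    simp only [Pi.add_apply]
    rw [← hc z, ← hc' z]
    ring
  · intro δ
    obtain ⟨L, hL⟩ := hF.2.2.2 δ
    obtain ⟨L', hL'⟩ := hG.2.2.2 δ
    exact ⟨L + L', hL.add hL'⟩

omit [NeZero N] in
theorem hasEquivariantPrimitive_smul {f : CuspForm (Gamma0 N) 2} {F : ℍ → ℂ} (a : ℂ)
    (hF : HasEquivariantPrimitive N f F) :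
    HasEquivariantPrimitive N (a • f) (a • F) := by
  refine ⟨fun τ => (hF.1 τ).const_mul a, ?_, ?_, ?_⟩
  · have := hF.2.1.const_smul a
    rwa [smul_zero] at this
  · intro γ
    obtain ⟨c, hc⟩ := hF.2.2.1 γ
    refine ⟨a * c, fun z => ?_⟩
    simp only [Pi.smul_apply, smul_eq_mul]
    rw [← hc z]
    ring
  · intro δ
    obtain ⟨L, hL⟩ := hF.2.2.2 δ
    exact ⟨a • L, hL.const_smul a⟩

/-- the period map as a linear map -/
def pml (N : ℕ) [NeZero N] : CuspForm (Gamma0 N) 2 →ₗ[ℂ] (Additive (Gamma0 N) →+ ℂ) where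
  toFun := periodMap N
  map_add' f g := by
    obtain ⟨F, hF, -⟩ := exists_primitive f
    obtain ⟨G, hG, -⟩ := exists_primitive g
    refine AddMonoidHom.ext fun γ => ?_
    obtain ⟨γ, rfl⟩ := Additive.ofMul.surjective γ
    rw [AddMonoidHom.add_apply, periodMap_apply (hasEquivariantPrimitive_add hF hG) γ I, periodMap_apply hF γ I,
      periodMap_apply hG γ I]
    simp only [Pi.add_apply]
    ring
  map_smul' a f := by
    obtain ⟨F, hF, -⟩ := exists_primitive f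
    refine AddMonoidHom.ext fun γ => ?_
    obtain ⟨γ, rfl⟩ := Additive.ofMul.surjective γ
    rw [periodMap_apply (hasEquivariantPrimitive_smul a hF) γ I, RingHom.id_apply, AddMonoidHom.smul_apply,
      periodMap_apply hF γ I]
    simp only [Pi.smul_apply, smul_eq_mul]
    ring

@[simp] theorem pml_apply (f : CuspForm (Gamma0 N) 2) : pml N f = periodMap N f := rfl

theorem existsPeriodMapLinear (N : ℕ) [NeZero N] : ExistsPeriodMapLinear N :=
  ⟨pml N, fun _ => rfl⟩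

end

end Fermat.Agent.S21Lib
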