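import Fermat.Agent.S21.Pre
import Fermat.Agent.S21.GroupBound

/-!
# `dim S₂(Γ₀(N)) ≤ g(N)` (independent of S20) and S21 from the dimension formula
-/

open CongruenceSubgroup ModularCurve ModularCurve.Period
open scoped MatrixGroups

namespace Fermat.Agent.S21Lib

theorem neg_one_mem_Gamma0 (N : ℕ) : (-1 : SL(2, ℤ)) ∈ Gamma0 N := by
  rw [Gamma0_mem]
  simp

theorem groupBoundStmt (N : ℕ) [NeZero N] : GroupBoundStmt N :=
  finrank_parabolicHoms_le (Gamma0 N) (neg_one_mem_Gamma0 N)

/-- Upper bound `dim S₂(Γ₀(N)) ≤ g(N)`, independent of S20. -/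
theorem finrank_cuspForm_le (N : ℕ) [NeZero N] :
    (Module.finrank ℂ (CuspForm (Gamma0 N) 2) : ℚ) ≤ genusFormula N :=
  (finrank_cuspForm_le_of N (groupBoundStmt N)).2

theorem finiteDimensional_cuspForm (N : ℕ) [NeZero N] :
    FiniteDimensional ℂ (CuspForm (Gamma0 N) 2) :=
  (finrank_cuspForm_le_of N (groupBoundStmt N)).1

/-- S21 from the dimension formula S20. -/
theorem eichlerShimura_of_finrank (N : ℕ) [NeZero N]
    (hdim : (Module.finrank ℂ (CuspForm (Gamma0 N) 2) : ℚ) = genusFormula N) :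
    Function.Injective (periodHomPair N)
      ∧ LinearMap.range (periodHomPair N) = parabolicHoms ℂ (Gamma0 N) ℂ :=
  eichlerShimura_of' N hdim (groupBoundStmt N)

end Fermat.Agent.S21Lib
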