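import Mathlib
import Fermat.Prelude.Def_ModularCurve_PeriodHomPair
import Fermat.Prelude.Def_ModularCurve_GenusNumerics
import Fermat.Agent.S20.Cosets

/-!
# Final wiring for S21 (piece (D)): injectivity + dimension count ⇒ Eichler–Shimura
-/

open CongruenceSubgroup ModularCurve ModularCurve.Period
open scoped MatrixGroups

namespace Fermat.Agent.S21Lib

theorem fin_range_le (N : ℕ) (hlin : ExistsPeriodMapLinear N)
    (hpar : ∀ f : CuspForm (Gamma0 N) 2, periodMap N f ∈ parabolicHoms ℂ (Gamma0 N) ℂ) :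
    LinearMap.range (periodHomPair N) ≤ parabolicHoms ℂ (Gamma0 N) ℂ := by
  obtain ⟨pml, hpml, heq⟩ := periodHomPair_def N hlin
  rintro _ ⟨⟨f, g⟩, rfl⟩
  rw [heq]
  simp only [LinearMap.coprod_apply, LinearMap.comp_apply, LinearMap.add_apply,
    LinearMap.sub_apply, LinearMap.id_apply, hpml]
  exact Submodule.add_mem _
    (Submodule.add_mem _ (hpar f) (charInvolution_mem_parabolicHoms N ℂ ℂ (hpar f)))
    (Submodule.sub_mem _ (hpar g) (charInvolution_mem_parabolicHoms N ℂ ℂ (hpar g)))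

theorem eichlerShimura_of (N : ℕ) [NeZero N]
    (hinj : Function.Injective (periodHomPair N))
    (hlin : ExistsPeriodMapLinear N)
    (hpar : ∀ f : CuspForm (Gamma0 N) 2, periodMap N f ∈ parabolicHoms ℂ (Gamma0 N) ℂ)
    (hdim : (Module.finrank ℂ (CuspForm (Gamma0 N) 2) : ℚ) = genusFormula N)
    (hbound : FiniteDimensional ℂ (parabolicHoms ℂ (Gamma0 N) ℂ) ∧
      6 * Module.finrank ℂ (parabolicHoms ℂ (Gamma0 N) ℂ)
        + 3 * Nat.card {x : SL(2, ℤ) ⧸ Gamma0 N // ModularGroup.S • x = x}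
        + 4 * Nat.card {x : SL(2, ℤ) ⧸ Gamma0 N // (ModularGroup.S * ModularGroup.T) • x = x}
        + 6 * Nat.card (MulAction.orbitRel.Quotient (Subgroup.zpowers ModularGroup.T)
            (SL(2, ℤ) ⧸ Gamma0 N))
        ≤ (Gamma0 N).index + 12) :
    Function.Injective (periodHomPair N)
      ∧ LinearMap.range (periodHomPair N) = parabolicHoms ℂ (Gamma0 N) ℂ := by
  refine ⟨hinj, ?_⟩
  obtain ⟨hfd, hb⟩ := hbound
  rw [S20Lib.index_Gamma0, S20Lib.card_fixed_S, S20Lib.card_fixed_ST, S20Lib.card_orbits_T] at hb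
  have hle := fin_range_le N hlin hpar
  apply Submodule.eq_of_le_of_finrank_le hle
  rw [LinearMap.finrank_range_of_inj hinj]
  -- finite-dimensionality of the space of cusp forms
  have hfdS : FiniteDimensional ℂ (CuspForm (Gamma0 N) 2 × CuspForm (Gamma0 N) 2) := by
    let e : (CuspForm (Gamma0 N) 2 × CuspForm (Gamma0 N) 2) →ₗ[ℂ] parabolicHoms ℂ (Gamma0 N) ℂ :=
      LinearMap.codRestrict _ (periodHomPair N) (fun x => hle ⟨x, rfl⟩)
    have he : Function.Injective e := by
      intro x y hxy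
      apply hinj
      exact congrArg Subtype.val hxy
    exact FiniteDimensional.of_injective e he
  have hfdS1 : FiniteDimensional ℂ (CuspForm (Gamma0 N) 2) :=
    FiniteDimensional.of_injective (LinearMap.inl ℂ (CuspForm (Gamma0 N) 2)
      (CuspForm (Gamma0 N) 2)) LinearMap.inl_injective
  rw [Module.finrank_prod]
  have hb' : (6 * Module.finrank ℂ (parabolicHoms ℂ (Gamma0 N) ℂ) + 3 * nuTwo N + 4 * nuThree N
      + 6 * cuspCount N : ℚ) ≤ dedekindPsi N + 12 := by exact_mod_cast hb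
  have : (Module.finrank ℂ (parabolicHoms ℂ (Gamma0 N) ℂ) : ℚ)
      ≤ (Module.finrank ℂ (CuspForm (Gamma0 N) 2) + Module.finrank ℂ (CuspForm (Gamma0 N) 2) : ℕ)
      := by
    push_cast
    rw [hdim, genusFormula]
    linarith
  exact_mod_cast this

end Fermat.Agent.S21Lib
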