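import Fermat.Agent.S21.Primitive

set_option autoImplicit false

/-! Periods vanish on parabolic elements. -/

namespace Fermat.Agent.S21Lib

open UpperHalfPlane Filter Function Matrix.SpecialLinearGroup CongruenceSubgroup
open ModularCurve ModularCurve.Period
open scoped ModularForm Manifold MatrixGroups Topology

noncomputable section

theorem exists_conj_upper (γ : SL(2, ℤ))
    (h : (γ : Matrix (Fin 2) (Fin 2) ℤ).trace ^ 2 = 4) :
    ∃ δ : SL(2, ℤ), (δ⁻¹ * γ * δ : SL(2, ℤ)) 1 0 = 0 := by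
  have hdet : γ 0 0 * γ 1 1 - γ 0 1 * γ 1 0 = 1 := by
    have := γ.det_coe
    rwa [Matrix.det_fin_two] at this
  rw [Matrix.trace_fin_two] at h
  by_cases hc : γ 1 0 = 0
  · exact ⟨1, by simpa using hc⟩
  obtain ⟨ε, hε, hε2⟩ : ∃ ε : ℤ, γ 0 0 + γ 1 1 = 2 * ε ∧ ε ^ 2 = 1 := by
    have h2 : (γ 0 0 + γ 1 1 - 2) * (γ 0 0 + γ 1 1 + 2) = 0 := by linear_combination h
    rcases mul_eq_zero.mp h2 with h3 | h3
    · exact ⟨1, by linarith, by norm_num⟩
    · exact ⟨-1, by linarith, by norm_num⟩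
  have hgpos : 0 < Int.gcd (γ 0 0 - ε) (γ 1 0) := Int.gcd_pos_of_ne_zero_right _ hc
  obtain ⟨p, q, hpq, hp, hq⟩ := Int.exists_gcd_one hgpos
  set g : ℤ := (Int.gcd (γ 0 0 - ε) (γ 1 0) : ℤ) with hg
  have hg0 : g ≠ 0 := by rw [hg]; exact_mod_cast hgpos.ne'
  obtain ⟨δ, hδ0, hδ1⟩ := (Int.isCoprime_iff_gcd_eq_one.mpr hpq).exists_SL2_col 0
  refine ⟨δ, ?_⟩
  have hentry : (δ⁻¹ * γ * δ : SL(2, ℤ)) 1 0 =
      γ 1 0 * p ^ 2 + (γ 1 1 - γ 0 0) * p * q - γ 0 1 * q ^ 2 := by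
    simp only [Matrix.SpecialLinearGroup.coe_mul, Matrix.SpecialLinearGroup.coe_inv,
      Matrix.adjugate_fin_two, Matrix.mul_apply, Fin.sum_univ_two, Matrix.of_apply,
      Matrix.cons_val_zero, Matrix.cons_val_one, Matrix.cons_val', hδ0, hδ1]
    ring
  rw [hentry]
  have hkey : g ^ 2 * (γ 1 0 * p ^ 2 + (γ 1 1 - γ 0 0) * p * q - γ 0 1 * q ^ 2) = 0 := by
    have e1 : g ^ 2 * (γ 1 0 * p ^ 2 + (γ 1 1 - γ 0 0) * p * q - γ 0 1 * q ^ 2)
        = γ 1 0 * (p * g) ^ 2 + (γ 1 1 - γ 0 0) * (p * g) * (q * g) - γ 0 1 * (q * g) ^ 2 := by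
      ring
    rw [e1, ← hp, ← hq]
    have hd : γ 1 1 = 2 * ε - γ 0 0 := by linarith
    rw [hd] at hdet ⊢
    linear_combination (γ 1 0) * hdet - (γ 1 0) * hε2
  exact (mul_eq_zero.mp hkey).resolve_left (pow_ne_zero 2 hg0)

theorem tendsto_smul_atImInfty_of_upper (γ : SL(2, ℤ)) (h : γ 1 0 = 0) :
    Tendsto (fun w : ℍ => γ • w) atImInfty atImInfty := by
  have hdet : γ 0 0 * γ 1 1 - γ 0 1 * γ 1 0 = 1 := by
    have := γ.det_coe
    rwa [Matrix.det_fin_two] at this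
  rw [h, mul_zero, sub_zero] at hdet
  have hd : (γ 1 1) ^ 2 = 1 := by
    rcases Int.isUnit_iff.mp (IsUnit.of_mul_eq_one _ (by rw [mul_comm]; exact hdet)) with h1 | h1 <;>
      rw [h1] <;> norm_num
  have him : ∀ w : ℍ, (γ • w).im = w.im := by
    intro w
    rw [ModularGroup.im_smul_eq_div_normSq]
    have : Complex.normSq (denom γ w) = 1 := by
      have hden : denom γ w = ((γ 1 1 : ℤ) : ℂ) := by
        simp [denom, h]
      rw [hden, Complex.normSq_intCast]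
      have : ((γ 1 1 : ℤ) : ℝ) ^ 2 = 1 := by exact_mod_cast hd
      nlinarith
    rw [this, div_one]
  rw [atImInfty, tendsto_comap_iff]
  have : (im ∘ fun w : ℍ => γ • w) = im := funext him
  rw [this]
  exact tendsto_comap

variable {N : ℕ} [NeZero N]

theorem periodMap_mem_parabolicHoms (f : CuspForm (Gamma0 N) 2) :
    periodMap N f ∈ parabolicHoms ℂ (Gamma0 N) ℂ := by
  rw [mem_parabolicHoms_iff]
  intro γ hγ
  obtain ⟨F, hF, -⟩ := exists_primitive f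
  obtain ⟨δ, hδ⟩ := exists_conj_upper γ hγ
  obtain ⟨L, hL⟩ := hF.2.2.2 δ
  have h1 : ∀ w : ℍ, periodMap N f (Additive.ofMul γ)
      = F (δ • ((δ⁻¹ * γ * δ : SL(2, ℤ)) • w)) - F (δ • w) := by
    intro w
    rw [periodMap_apply hF γ (δ • w), ← mul_smul, ← mul_smul]
    congr 3
    group
  have h2 : Tendsto (fun w : ℍ => F (δ • ((δ⁻¹ * γ * δ : SL(2, ℤ)) • w)) - F (δ • w))
      atImInfty (𝓝 (L - L)) :=
    (hL.comp (tendsto_smul_atImInfty_of_upper _ hδ)).sub hL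
  rw [sub_self] at h2
  have h3 : Tendsto (fun _ : ℍ => periodMap N f (Additive.ofMul γ)) atImInfty (𝓝 0) :=
    h2.congr fun w => (h1 w).symm
  exact tendsto_nhds_unique tendsto_const_nhds h3

end

end Fermat.Agent.S21Lib
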