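import Mathlib

/-!
# Elements of `SL(2,ℤ)` of trace `±2` are conjugate to `± T ^ m` (aux for S21)
-/

open scoped MatrixGroups

namespace Fermat.Agent.S21Lib

theorem pc_eq_T_zpow (g : SL(2, ℤ)) (h00 : g 0 0 = 1) (h10 : g 1 0 = 0) :
    g = ModularGroup.T ^ (g 0 1) := by
  have hdet := g.det_coe
  rw [Matrix.det_fin_two] at hdet
  have h11 : g 1 1 = 1 := by rw [h00, h10] at hdet; linarith
  ext i j
  rw [ModularGroup.coe_T_zpow]
  fin_cases i <;> fin_cases j <;> simp [h00, h10, h11]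

theorem pc_exists_fixed_vec (a b c d : ℤ) (htr : a + d = 2) (hdet : a * d - b * c = 1) :
    ∃ x y : ℤ, IsCoprime x y ∧ a * x + b * y = x ∧ c * x + d * y = y := by
  by_cases h0 : Int.gcd b (1 - a) = 0
  · rw [Int.gcd_eq_zero_iff] at h0
    obtain ⟨hb, ha⟩ := h0
    refine ⟨0, 1, isCoprime_zero_left.mpr isUnit_one, ?_, ?_⟩
    · rw [hb]; ring
    · linarith
  · obtain ⟨x, y, hxy, hb, ha⟩ := Int.exists_gcd_one (Nat.pos_of_ne_zero h0)
    set g : ℤ := (Int.gcd b (1 - a) : ℤ) with hg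
    have hg0 : g ≠ 0 := by rw [hg]; exact_mod_cast h0
    refine ⟨x, y, Int.isCoprime_iff_gcd_eq_one.mpr hxy, ?_, ?_⟩
    · apply mul_right_cancel₀ hg0
      have : a * (x * g) + b * (y * g) = x * g := by
        rw [← hb, ← ha]; ring
      linear_combination this
    · apply mul_right_cancel₀ hg0
      have hd : d = 2 - a := by linarith
      have : c * (x * g) + d * (y * g) = y * g := by
        rw [← hb, ← ha, hd]
        rw [hd] at hdet
        linear_combination -hdet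
      linear_combination this

theorem pc_trace_two (γ : SL(2, ℤ)) (h : (γ : Matrix (Fin 2) (Fin 2) ℤ).trace = 2) :
    ∃ (δ : SL(2, ℤ)) (m : ℤ), γ = δ * ModularGroup.T ^ m * δ⁻¹ := by
  have hdet := γ.det_coe
  rw [Matrix.det_fin_two] at hdet
  rw [Matrix.trace_fin_two] at h
  obtain ⟨x, y, hxy, h1, h2⟩ := pc_exists_fixed_vec _ _ _ _ h hdet
  obtain ⟨δ, hδ0, hδ1⟩ := hxy.exists_SL2_col 0
  have hdδ := δ.det_coe
  rw [Matrix.det_fin_two, hδ0, hδ1] at hdδ
  refine ⟨δ, (δ⁻¹ * γ * δ) 0 1, ?_⟩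
  have key := pc_eq_T_zpow (δ⁻¹ * γ * δ) ?_ ?_
  · rw [← key]; group
  · simp only [Matrix.SpecialLinearGroup.coe_mul, Matrix.SpecialLinearGroup.coe_inv,
      Matrix.adjugate_fin_two, Matrix.mul_apply, Fin.sum_univ_two, hδ0, hδ1]
    simp only [Matrix.of_apply, Matrix.cons_val', Matrix.cons_val_zero, Matrix.cons_val_one,
      Matrix.cons_val_fin_one]
    linear_combination (δ 1 1) * h1 - (δ 0 1) * h2 + hdδ
  · simp only [Matrix.SpecialLinearGroup.coe_mul, Matrix.SpecialLinearGroup.coe_inv,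
      Matrix.adjugate_fin_two, Matrix.mul_apply, Fin.sum_univ_two, hδ0, hδ1]
    simp only [Matrix.of_apply, Matrix.cons_val', Matrix.cons_val_zero, Matrix.cons_val_one,
      Matrix.cons_val_fin_one]
    linear_combination (-y) * h1 + x * h2

/-- An element of `SL(2,ℤ)` with `trace ^ 2 = 4` is conjugate to `± T ^ m`. -/
theorem exists_conj_T_zpow (γ : SL(2, ℤ)) (h : (γ : Matrix (Fin 2) (Fin 2) ℤ).trace ^ 2 = 4) :
    ∃ (δ : SL(2, ℤ)) (m : ℤ),
      γ = δ * ModularGroup.T ^ m * δ⁻¹ ∨ γ = -(δ * ModularGroup.T ^ m * δ⁻¹) := by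
  have h' : (γ : Matrix (Fin 2) (Fin 2) ℤ).trace = 2 ∨ (γ : Matrix (Fin 2) (Fin 2) ℤ).trace = -2 := by
    have : ((γ : Matrix (Fin 2) (Fin 2) ℤ).trace - 2) * ((γ : Matrix (Fin 2) (Fin 2) ℤ).trace + 2)
        = 0 := by linear_combination h
    rcases mul_eq_zero.mp this with h | h
    · left; linarith
    · right; linarith
  rcases h' with h | h
  · obtain ⟨δ, m, hm⟩ := pc_trace_two γ h
    exact ⟨δ, m, Or.inl hm⟩
  · obtain ⟨δ, m, hm⟩ := pc_trace_two (-γ) (by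
      rw [Matrix.SpecialLinearGroup.coe_neg, Matrix.trace_neg, h]; norm_num)
    exact ⟨δ, m, Or.inr (by rw [← hm, neg_neg])⟩

/-- Action form: `γ • (δ • w) = δ • (T ^ m • w)`. -/
theorem exists_smul_eq_T_zpow (γ : SL(2, ℤ))
    (h : (γ : Matrix (Fin 2) (Fin 2) ℤ).trace ^ 2 = 4) :
    ∃ (δ : SL(2, ℤ)) (m : ℤ), ∀ w : UpperHalfPlane,
      γ • (δ • w) = δ • (ModularGroup.T ^ m • w) := by
  obtain ⟨δ, m, hm | hm⟩ := exists_conj_T_zpow γ h
  · refine ⟨δ, m, fun w => ?_⟩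
    rw [hm, smul_smul, smul_smul]
    congr 1
    group
  · refine ⟨δ, m, fun w => ?_⟩
    rw [hm, ModularGroup.SL_neg_smul, smul_smul, smul_smul]
    congr 1
    group

end Fermat.Agent.S21Lib
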