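import Fermat.Agent.S21.Final
import Fermat.Agent.S21.Injective
import Fermat.Agent.S21.Parabolic

/-!
# S21 from the dimension formula and the group-theoretic bound
-/

open CongruenceSubgroup ModularCurve ModularCurve.Period
open scoped MatrixGroups

namespace Fermat.Agent.S21Lib

theorem periodHomPair_injective (N : ℕ) [NeZero N] : Function.Injective (periodHomPair N) :=
  periodHomPair_injective_of N exists_primitive (fun _ _ hF γ z => periodMap_apply hF γ z)
    (existsPeriodMapLinear N)

/-- The statement of the group-theoretic bound (piece (C)) for `Γ₀(N)`. -/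
def GroupBoundStmt (N : ℕ) : Prop :=
  FiniteDimensional ℂ (parabolicHoms ℂ (Gamma0 N) ℂ) ∧
      6 * Module.finrank ℂ (parabolicHoms ℂ (Gamma0 N) ℂ)
        + 3 * Nat.card {x : SL(2, ℤ) ⧸ Gamma0 N // ModularGroup.S • x = x}
        + 4 * Nat.card {x : SL(2, ℤ) ⧸ Gamma0 N // (ModularGroup.S * ModularGroup.T) • x = x}
        + 6 * Nat.card (MulAction.orbitRel.Quotient (Subgroup.zpowers ModularGroup.T)
            (SL(2, ℤ) ⧸ Gamma0 N))
        ≤ (Gamma0 N).index + 12

theorem eichlerShimura_of' (N : ℕ) [NeZero N]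
    (hdim : (Module.finrank ℂ (CuspForm (Gamma0 N) 2) : ℚ) = genusFormula N)
    (hbound : GroupBoundStmt N) :
    Function.Injective (periodHomPair N)
      ∧ LinearMap.range (periodHomPair N) = parabolicHoms ℂ (Gamma0 N) ℂ :=
  eichlerShimura_of N (periodHomPair_injective N) (existsPeriodMapLinear N)
    (fun f => periodMap_mem_parabolicHoms f) hdim hbound

/-- Upper bound `dim S₂(Γ₀(N)) ≤ g(N)`, independent of S20. -/
theorem finrank_cuspForm_le_of (N : ℕ) [NeZero N] (hbound : GroupBoundStmt N) :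
    FiniteDimensional ℂ (CuspForm (Gamma0 N) 2) ∧
    (Module.finrank ℂ (CuspForm (Gamma0 N) 2) : ℚ) ≤ genusFormula N := by
  obtain ⟨hfd, hb⟩ := hbound
  rw [S20Lib.index_Gamma0, S20Lib.card_fixed_S, S20Lib.card_fixed_ST, S20Lib.card_orbits_T] at hb
  have hinj := periodHomPair_injective N
  have hle := fin_range_le N (existsPeriodMapLinear N) (fun f => periodMap_mem_parabolicHoms f)
  let e : (CuspForm (Gamma0 N) 2 × CuspForm (Gamma0 N) 2) →ₗ[ℂ] parabolicHoms ℂ (Gamma0 N) ℂ :=
    LinearMap.codRestrict _ (periodHomPair N) (fun x => hle ⟨x, rfl⟩)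
  have he : Function.Injective e := by
    intro x y hxy
    apply hinj
    exact congrArg Subtype.val hxy
  have hfdS : FiniteDimensional ℂ (CuspForm (Gamma0 N) 2 × CuspForm (Gamma0 N) 2) :=
    FiniteDimensional.of_injective e he
  have hfdS1 : FiniteDimensional ℂ (CuspForm (Gamma0 N) 2) :=
    FiniteDimensional.of_injective (LinearMap.inl ℂ (CuspForm (Gamma0 N) 2)
      (CuspForm (Gamma0 N) 2)) LinearMap.inl_injective
  refine ⟨hfdS1, ?_⟩
  have h1 := LinearMap.finrank_le_finrank_of_injective he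
  rw [Module.finrank_prod] at h1
  have h1' : (Module.finrank ℂ (CuspForm (Gamma0 N) 2) + Module.finrank ℂ (CuspForm (Gamma0 N) 2)
      : ℚ) ≤ Module.finrank ℂ (parabolicHoms ℂ (Gamma0 N) ℂ) := by exact_mod_cast h1
  have hb' : (6 * Module.finrank ℂ (parabolicHoms ℂ (Gamma0 N) ℂ) + 3 * nuTwo N + 4 * nuThree N
      + 6 * cuspCount N : ℚ) ≤ dedekindPsi N + 12 := by exact_mod_cast hb
  rw [genusFormula]
  linarith

end Fermat.Agent.S21Lib
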